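import Fermat.Agent.S55.G.Places177.Global

/-!
# S55, layer G, leaf G-PLACES (helper177), part 3: every prime above `q` is a `placeOf`

`exists_placeOf_eq` : for every prime `w` of `L` above `q` there is a maximal ideal `𝔪` of
`ℚ_q ⊗ L` with `placeOf 𝔪 = w`.

Proof.  Otherwise, by prime avoidance, there is `x ∈ w` which is a unit of the ring of integers of
every `F_𝔪`; then `(1 ⊗ x)⁻¹` is integral over `ℤ_q`, hence a polynomial in `1 ⊗ x` with
coefficients in `ℤ_q`, so `1 ⊗ x` is a unit of `ℤ_q ⊗_ℤ 𝓞_L` (which embeds into `ℚ_q ⊗_ℚ L`);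
reducing modulo `w` (`ℤ_q ⊗ 𝓞_L → 𝓞_L / w`) gives `1 = 0`.
-/

set_option autoImplicit false
set_option linter.style.haveILetI false
set_option linter.unusedSectionVars false
open scoped NumberField TensorProduct
open IsLocalRing Polynomial

namespace Fermat.Agent.S55.G.Places177
noncomputable section

section UnitTrick

variable {R S : Type} [CommRing R] [CommRing S] [Algebra R S]

/-- If `u * y = 1` and `y` is integral over `R`, there is a polynomial `Q₁` over `R`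
with `1 + u * Q₁(u) = 0`. -/
theorem exists_poly_of_inv_integral {u y : S} (huy : u * y = 1) (hy : IsIntegral R y) :
    ∃ Q₁ : R[X], 1 + u * aeval u Q₁ = 0 := by
  obtain ⟨P, hPm, hP⟩ := hy
  letI : Invertible y := ⟨u, huy, by rw [mul_comm]; exact huy⟩
  have hinv : ⅟y = u := rfl
  have h2 := (Polynomial.eval₂_reverse_eq_zero_iff (algebraMap R S) y P).mpr hP
  rw [hinv] at h2
  have h3 : P.reverse.divX * X + C (P.reverse.coeff 0) = P.reverse := Polynomial.divX_mul_X_add _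
  rw [Polynomial.coeff_zero_reverse, hPm.leadingCoeff] at h3
  rw [← h3] at h2
  simp only [eval₂_add, eval₂_mul, eval₂_X, map_one, eval₂_one] at h2
  refine ⟨P.reverse.divX, ?_⟩
  rw [aeval_def]
  linear_combination h2

end UnitTrick

section Integral

variable (q : ℕ) [Fact q.Prime] (L : Type) [Field L] [NumberField L]

/-- An element of `ℚ_q ⊗ L` all of whose images in the residue fields are integral over `ℤ_q`
is integral over `ℤ_q`. -/
theorem isIntegral_of_forall_mk (y : BQ q L)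
    (hy : ∀ 𝔪 : MaximalSpectrum (BQ q L), IsIntegral ℤ_[q] (FQ.mk 𝔪 y)) :
    IsIntegral ℤ_[q] y := by
  classical
  haveI := isArtinianRing_BQ q L
  haveI := isReduced_BQ q L
  letI : Fintype (MaximalSpectrum (BQ q L)) := Fintype.ofFinite _
  choose P hPm hP using hy
  refine ⟨∏ 𝔪, P 𝔪, Polynomial.monic_prod_of_monic _ _ (fun 𝔪 _ => hPm 𝔪), ?_⟩
  apply (IsArtinianRing.equivPi (BQ q L)).injective
  rw [map_zero]
  funext 𝔪
  rw [IsArtinianRing.equivPi_apply, Pi.zero_apply]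
  have h1 : (Ideal.Quotient.mk 𝔪.asIdeal) (eval₂ (algebraMap ℤ_[q] (BQ q L)) y (∏ 𝔪, P 𝔪)) =
      eval₂ (algebraMap ℤ_[q] (FQ q L 𝔪)) (FQ.mk 𝔪 y) (∏ 𝔪, P 𝔪) := by
    rw [Polynomial.hom_eval₂]
    rfl
  rw [h1, Polynomial.eval₂_finsetProd]
  exact Finset.prod_eq_zero (Finset.mem_univ 𝔪) (hP 𝔪)

end Integral

section Lattice

variable (q : ℕ) [Fact q.Prime] (L : Type) [Field L] [NumberField L]

/-- The order `ℤ_q ⊗_ℤ 𝓞_L`. -/
abbrev RT : Type := ℤ_[q] ⊗[ℤ] 𝓞 L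

/-- `𝓞 L → ℚ_q ⊗ L`, `z ↦ 1 ⊗ z`, as a `ℤ`-algebra map. -/
def inclO : 𝓞 L →ₐ[ℤ] BQ q L :=
  (((inclL q L : L →+* BQ q L)).comp (algebraMap (𝓞 L) L)).toIntAlgHom

@[simp] theorem inclO_apply (z : 𝓞 L) : inclO q L z = (1 : ℚ_[q]) ⊗ₜ[ℚ] (z : L) := rfl

/-- The natural map `ℤ_q ⊗_ℤ 𝓞_L → ℚ_q ⊗_ℚ L`. -/
def jMap : RT q L →ₐ[ℤ_[q]] BQ q L :=
  Algebra.TensorProduct.lift (Algebra.ofId ℤ_[q] (BQ q L)) (inclO q L)
    (fun _ _ => Commute.all _ _)

@[simp] theorem jMap_tmul (a : ℤ_[q]) (z : 𝓞 L) :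
    jMap q L (a ⊗ₜ[ℤ] z) = ((a : ℤ_[q]) : ℚ_[q]) ⊗ₜ[ℚ] (z : L) := by
  rw [jMap, Algebra.TensorProduct.lift_tmul, inclO_apply, Algebra.ofId_apply,
    Algebra.TensorProduct.algebraMap_apply, Algebra.TensorProduct.tmul_mul_tmul, one_mul, mul_one]
  rfl

theorem jMap_injective : Function.Injective (jMap q L) := by
  classical
  let b := NumberField.RingOfIntegers.basis L
  let bR := Algebra.TensorProduct.basis ℤ_[q] b
  let bB := Algebra.TensorProduct.basis ℚ_[q] (NumberField.integralBasis L)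
  let φ₁ : RT q L →ₗ[ℤ_[q]] (Module.Free.ChooseBasisIndex ℤ (𝓞 L) →₀ ℚ_[q]) :=
    (bB.repr.toLinearMap.restrictScalars ℤ_[q]) ∘ₗ (jMap q L).toLinearMap
  let φ₂ : RT q L →ₗ[ℤ_[q]] (Module.Free.ChooseBasisIndex ℤ (𝓞 L) →₀ ℚ_[q]) :=
    (Finsupp.mapRange.linearMap (Algebra.linearMap ℤ_[q] ℚ_[q])) ∘ₗ bR.repr.toLinearMap
  have h12 : φ₁ = φ₂ := by
    apply bR.ext
    intro i
    simp only [φ₁, φ₂, LinearMap.comp_apply, LinearMap.restrictScalars_apply,
      LinearEquiv.coe_coe, AlgHom.toLinearMap_apply, Module.Basis.repr_self]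
    have h1 : jMap q L (bR i) = bB i := by
      simp only [bR, bB, Algebra.TensorProduct.basis_apply, jMap_tmul,
        NumberField.integralBasis_apply]
      simp
      rfl
    rw [h1, Module.Basis.repr_self]
    simp
  rw [injective_iff_map_eq_zero]
  intro r hr
  have h1 : φ₁ r = 0 := by simp [φ₁, hr]
  rw [h12] at h1
  simp only [φ₂, LinearMap.comp_apply, LinearEquiv.coe_coe] at h1
  apply bR.repr.injective
  rw [map_zero]
  ext i
  have := DFunLike.congr_fun h1 i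
  simp only [Finsupp.mapRange.linearMap_apply, Finsupp.mapRange_apply, Finsupp.coe_zero,
    Pi.zero_apply, Algebra.linearMap_apply] at this
  rw [Finsupp.coe_zero, Pi.zero_apply]
  exact (IsFractionRing.injective ℤ_[q] ℚ_[q]) (by rw [this, map_zero])

end Lattice

section Rho

variable {q : ℕ} [Fact q.Prime] {L : Type} [Field L] [NumberField L]

theorem charP_quotient (w : Ideal (𝓞 L)) [w.IsPrime] (hq : ((q : ℕ) : 𝓞 L) ∈ w) :
    CharP (𝓞 L ⧸ w) q := by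
  rw [CharP.charP_iff_prime_eq_zero (Fact.out : q.Prime)]
  rw [← map_natCast (Ideal.Quotient.mk w), Ideal.Quotient.eq_zero_iff_mem]
  exact hq

/-- `ℤ_q → 𝔽_q → 𝓞_L / w` for a prime `w` above `q`. -/
def rhoBase (w : Ideal (𝓞 L)) [w.IsPrime] (hq : ((q : ℕ) : 𝓞 L) ∈ w) : ℤ_[q] →+* 𝓞 L ⧸ w :=
  haveI := charP_quotient w hq
  (ZMod.castHom (dvd_refl q) (𝓞 L ⧸ w)).comp PadicInt.toZMod

/-- The reduction map `ℤ_q ⊗ 𝓞_L → 𝓞_L / w` for a prime `w` above `q`. -/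
def rho (w : Ideal (𝓞 L)) [w.IsPrime] (hq : ((q : ℕ) : 𝓞 L) ∈ w) : RT q L →+* 𝓞 L ⧸ w :=
  (Algebra.TensorProduct.lift (rhoBase w hq).toIntAlgHom (Ideal.Quotient.mk w).toIntAlgHom
    (fun _ _ => Commute.all _ _)).toRingHom

theorem rho_one_tmul (w : Ideal (𝓞 L)) [w.IsPrime] (hq : ((q : ℕ) : 𝓞 L) ∈ w) (z : 𝓞 L) :
    rho w hq ((1 : ℤ_[q]) ⊗ₜ[ℤ] z) = Ideal.Quotient.mk w z := by
  simp [rho]

end Rho

section Surjective

variable {q : ℕ} [Fact q.Prime] {L : Type} [Field L] [NumberField L]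

theorem nontrivial_BQ : Nontrivial (BQ q L) := by
  have h : 0 < Module.finrank ℚ_[q] (BQ q L) := by
    rw [finrank_BQ]
    exact Module.finrank_pos
  exact Module.nontrivial_of_finrank_pos (R := ℚ_[q]) h

/-- Every prime of `L` above `q` comes from a maximal ideal of `ℚ_q ⊗ L`. -/
theorem exists_placeOf_eq (w : IsDedekindDomain.HeightOneSpectrum (𝓞 L))
    (hq : ((q : ℕ) : 𝓞 L) ∈ w.asIdeal) :
    ∃ 𝔪 : MaximalSpectrum (BQ q L), placeOf 𝔪 = w := by
  classical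
  by_contra hne
  push Not at hne
  haveI := isArtinianRing_BQ q L
  haveI := nontrivial_BQ (q := q) (L := L)
  letI : Fintype (MaximalSpectrum (BQ q L)) := Fintype.ofFinite _
  obtain ⟨I₀, hI₀⟩ := Ideal.exists_maximal (BQ q L)
  let 𝔪₀ : MaximalSpectrum (BQ q L) := ⟨I₀, hI₀⟩
  -- Step 1: prime avoidance
  have h1 : ∃ x ∈ w.asIdeal, ∀ 𝔪 : MaximalSpectrum (BQ q L), x ∉ (placeOf 𝔪).asIdeal := by
    by_contra hcon
    push Not at hcon
    let f : MaximalSpectrum (BQ q L) → Ideal (𝓞 L) := fun 𝔪 => (placeOf 𝔪).asIdeal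
    have hsub : ((w.asIdeal : Set (𝓞 L)) ⊆
        ⋃ 𝔪 ∈ ((Finset.univ : Finset (MaximalSpectrum (BQ q L))) : Set _),
          (f 𝔪 : Set (𝓞 L))) := by
      intro x hx
      obtain ⟨𝔪, h𝔪⟩ := hcon x hx
      exact Set.mem_biUnion (Finset.mem_coe.mpr (Finset.mem_univ 𝔪)) h𝔪
    rw [Ideal.subset_union_prime 𝔪₀ 𝔪₀ (fun 𝔪 _ _ _ => (placeOf 𝔪).isPrime)] at hsub
    obtain ⟨𝔪, -, hle⟩ := hsub
    have hmax : w.asIdeal.IsMaximal := w.isMaximal
    have heq : w.asIdeal = (placeOf 𝔪).asIdeal :=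
      hmax.eq_of_le (placeOf 𝔪).isPrime.ne_top hle
    exact hne 𝔪 (IsDedekindDomain.HeightOneSpectrum.ext heq.symm)
  obtain ⟨x, hxw, hx⟩ := h1
  have hx0 : (x : L) ≠ 0 := by
    intro h0
    have : x = 0 := NumberField.RingOfIntegers.ext (by simpa using h0)
    exact hx 𝔪₀ (this ▸ Ideal.zero_mem _)
  -- Step 3: the inverse is integral
  set X : BQ q L := (1 : ℚ_[q]) ⊗ₜ[ℚ] (x : L) with hX
  set y : BQ q L := (1 : ℚ_[q]) ⊗ₜ[ℚ] ((x : L)⁻¹) with hy
  have hXy : X * y = 1 := by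
    rw [hX, hy, Algebra.TensorProduct.tmul_mul_tmul, mul_one, mul_inv_cancel₀ hx0]
    rfl
  have hyint : IsIntegral ℤ_[q] y := by
    apply isIntegral_of_forall_mk
    intro 𝔪
    have h2 := hx 𝔪
    rw [mem_placeOf_iff, not_not] at h2
    obtain ⟨z, hz, hxz⟩ := h2
    have h3 : toFQ 𝔪 (x : L) * FQ.mk 𝔪 y = 1 := by
      have : toFQ 𝔪 (x : L) = FQ.mk 𝔪 X := rfl
      rw [this, ← map_mul, hXy, map_one]
    have h4 : FQ.mk 𝔪 y = z := by
      have hne0 : toFQ 𝔪 (x : L) ≠ 0 := by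
        intro h0
        rw [h0, zero_mul] at h3
        exact zero_ne_one h3
      exact mul_left_cancel₀ hne0 (h3.trans hxz.symm)
    rw [h4]
    exact hz
  -- Step 4: the polynomial
  obtain ⟨Q₁, hQ₁⟩ := exists_poly_of_inv_integral (R := ℤ_[q]) hXy hyint
  -- Step 5: pull back to `ℤ_q ⊗ 𝓞_L`
  set Xt : RT q L := (1 : ℤ_[q]) ⊗ₜ[ℤ] x with hXt
  have hjX : jMap q L Xt = X := by
    rw [hXt, jMap_tmul, hX]
    simp
  have h5 : 1 + Xt * Polynomial.aeval Xt Q₁ = 0 := by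
    apply jMap_injective q L
    rw [map_add, map_mul, map_one, map_zero, ← Polynomial.aeval_algHom_apply, hjX]
    exact hQ₁
  -- Step 6: reduce modulo `w`
  haveI := w.isPrime
  have h6 := congrArg (rho w.asIdeal hq) h5
  rw [map_add, map_mul, map_one, map_zero, hXt, rho_one_tmul,
    Ideal.Quotient.eq_zero_iff_mem.mpr hxw, zero_mul, add_zero] at h6
  have : Nontrivial (𝓞 L ⧸ w.asIdeal) := Ideal.Quotient.nontrivial_iff.mpr w.isPrime.ne_top
  exact one_ne_zero h6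

end Surjective
end
end Fermat.Agent.S55.G.Places177
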