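import Fermat.Agent.S55.G.Places177.Intrinsic

/-!
# S55 layer G, leaf G-PL1 (helper177): `placePrime : PlacePrimeSpec`

The places above `S` of the tensor model (`SPlace S L = MaximalSpectrum (L ⊗ ℚ_S)`) are the primes
of `L` above `S`, Galois-equivariantly and compatibly with the rings of integers of the local fields.

* `sigmaPrimeEquiv : (Σ q : S, {w // q ∈ w}) ≃ PrimeIn S L`;
* `placeBij S L : SPlace S L ≃ PrimeIn S L`, with `placeBij_back`;
* `mem_placeBij_iff` (clause 2 of the spec), `placeBij_smul` (clause 1);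
* `placePrime : PlacePrimeSpec`.
-/

set_option autoImplicit false
set_option linter.unusedSectionVars false
set_option linter.style.haveILetI false

open scoped NumberField TensorProduct
open IsLocalRing IsDedekindDomain

namespace Fermat.Agent.S55.G.Places177

open Fermat.Agent.S55.G Fermat.Agent.S55.G.PL0H713

noncomputable section

variable (S : Finset Nat.Primes) (L : Type) [Field L] [NumberField L]

attribute [local instance] fact_prime_of_mem

/-! ## Primes above `S`, sorted by residue characteristic -/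

theorem eq_of_natCast_mem (w : HeightOneSpectrum (𝓞 L)) (q q' : Nat.Primes)
    (hq : ((q : ℕ) : 𝓞 L) ∈ w.asIdeal) (hq' : ((q' : ℕ) : 𝓞 L) ∈ w.asIdeal) : q = q' := by
  by_contra hne
  have hcop : Nat.Coprime (q : ℕ) (q' : ℕ) :=
    (Nat.coprime_primes q.2 q'.2).2 fun h => hne (Subtype.ext h)
  have h1 : (((Nat.gcdA q q' : ℤ) : 𝓞 L) * ((q : ℕ) : 𝓞 L) +
      ((Nat.gcdB q q' : ℤ) : 𝓞 L) * ((q' : ℕ) : 𝓞 L)) ∈ w.asIdeal :=
    w.asIdeal.add_mem (w.asIdeal.mul_mem_left _ hq) (w.asIdeal.mul_mem_left _ hq')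
  have h2 : (((Nat.gcdA q q' : ℤ) : 𝓞 L) * ((q : ℕ) : 𝓞 L) +
      ((Nat.gcdB q q' : ℤ) : 𝓞 L) * ((q' : ℕ) : 𝓞 L)) = 1 := by
    have := Nat.gcd_eq_gcd_ab q q'
    rw [hcop.gcd_eq_one] at this
    have h3 := congrArg (Int.cast : ℤ → 𝓞 L) this
    push_cast at h3
    rw [h3]
    ring
  rw [h2] at h1
  exact w.isPrime.ne_top ((Ideal.eq_top_iff_one _).2 h1)

/-- The primes above `S`, sorted by residue characteristic. -/
def sigmaPrimeEquiv :
    (Σ q : S, {w : HeightOneSpectrum (𝓞 L) // (((q.1 : ℕ) : ℕ) : 𝓞 L) ∈ w.asIdeal}) ≃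
      PrimeIn S L :=
  Equiv.ofBijective (fun x => ⟨x.2.1, ⟨x.1.1, x.1.2, x.2.2⟩⟩)
    ⟨by
      rintro ⟨q, w, hw⟩ ⟨q', w', hw'⟩ h
      have hww : w = w' := congrArg Subtype.val h
      subst hww
      have hqq : q = q' := Subtype.ext (eq_of_natCast_mem L w q.1 q'.1 hw hw')
      subst hqq
      rfl,
    by
      rintro ⟨w, q, hq, hw⟩
      exact ⟨⟨⟨q, hq⟩, ⟨w, hw⟩⟩, rfl⟩⟩

@[simp] theorem sigmaPrimeEquiv_apply
    (x : Σ q : S, {w : HeightOneSpectrum (𝓞 L) // (((q.1 : ℕ) : ℕ) : 𝓞 L) ∈ w.asIdeal}) :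
    (sigmaPrimeEquiv S L x).1 = x.2.1 := rfl

/-! ## The bijection -/

/-- **G-PL1**, the bijection between the places of the tensor model and the primes above `S`. -/
def placeBij : SPlace S L ≃ PrimeIn S L :=
  (Equiv.ofBijective (back S L) (back_bijective S L)).symm.trans
    ((Equiv.sigmaCongrRight fun q : S => placeEquiv (q := (q.1 : ℕ)) (L := L)).trans
      (sigmaPrimeEquiv S L))

theorem placeBij_back (q : S) (𝔫 : MaximalSpectrum (BQ (q.1 : ℕ) L)) :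
    (placeBij S L (back S L ⟨q, 𝔫⟩)).1 = placeOf 𝔫 := by
  have h : (Equiv.ofBijective (back S L) (back_bijective S L)).symm (back S L ⟨q, 𝔫⟩) = ⟨q, 𝔫⟩ :=
    (Equiv.ofBijective (back S L) (back_bijective S L)).symm_apply_apply ⟨q, 𝔫⟩
  simp only [placeBij, Equiv.trans_apply, h, sigmaPrimeEquiv_apply, Equiv.sigmaCongrRight_apply,
    placeEquiv_apply]


/-! ## Clause 2: rings of integers -/

theorem mem_placeOf_iff_nonunits (q : S) (𝔫 : MaximalSpectrum (BQ (q.1 : ℕ) L))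
    (A : ValuationSubring (LocField S (back S L ⟨q, 𝔫⟩)))
    (hA : Fermat.Agent.S55.L.IsLocalRingOfIntegers A) (x : 𝓞 L) :
    x ∈ (placeOf 𝔫).asIdeal ↔ toLoc S (back S L ⟨q, 𝔫⟩) (x : L) ∈ A.nonunits :=
  haveI := FQ.finiteDimensional 𝔫
  mem_placeIdeal_iff_nonunits_of_ringEquiv (q.1 : ℕ) (locEquiv S L q 𝔫)
    (toLoc S (back S L ⟨q, 𝔫⟩)) (toFQ 𝔫) (locEquiv_toLoc S L q 𝔫) A hA x

/-- **G-PL1**, clause 2. -/
theorem mem_placeBij_iff (𝔪 : SPlace S L) (A : ValuationSubring (LocField S 𝔪))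
    (hA : Fermat.Agent.S55.L.IsLocalRingOfIntegers A) (x : 𝓞 L) :
    x ∈ (placeBij S L 𝔪).1.asIdeal ↔ toLoc S 𝔪 (x : L) ∈ A.nonunits := by
  obtain ⟨⟨q, 𝔫⟩, rfl⟩ := back_surjective S L 𝔪
  rw [placeBij_back]
  exact mem_placeOf_iff_nonunits S L q 𝔫 A hA x


/-! ## Clause 1: Galois equivariance -/

section Equivariance

variable (G : Type) [Group G] [MulSemiringAction G L]

/-- The action of `g` on `ℚ_q ⊗ L` through the second factor. -/
def bqAut (q : ℕ) [Fact q.Prime] (g : G) : BQ q L ≃ₐ[ℚ_[q]] BQ q L :=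
  Algebra.TensorProduct.congr AlgEquiv.refl (fieldAut G L g)

theorem bqAut_tmul (q : ℕ) [Fact q.Prime] (g : G) (a : ℚ_[q]) (l : L) :
    bqAut L G q g (a ⊗ₜ[ℚ] l) = a ⊗ₜ[ℚ] (g • l) := by
  simp [bqAut]

theorem piq_asAut (q : S) (g : G) (x : AS S L) :
    piq S L q (asAut S G L g x) = bqAut L G (q.1 : ℕ) g (piq S L q x) := by
  induction x using TensorProduct.induction_on with
  | zero => simp
  | tmul l y => rw [asAut_tmul, piq_tmul, piq_tmul, bqAut_tmul]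
  | add x y hx hy => rw [map_add, map_add, map_add, map_add, hx, hy]

/-- The translate `g 𝔫` of a maximal ideal of `ℚ_q ⊗ L`. -/
def smulMax (q : ℕ) [Fact q.Prime] (g : G) (𝔫 : MaximalSpectrum (BQ q L)) :
    MaximalSpectrum (BQ q L) where
  asIdeal := 𝔫.asIdeal.comap (bqAut L G q g).symm
  isMaximal :=
    haveI := 𝔫.isMaximal
    Ideal.comap_isMaximal_of_surjective _ (bqAut L G q g).symm.surjective

theorem mem_smulMax_iff (q : ℕ) [Fact q.Prime] (g : G) (𝔫 : MaximalSpectrum (BQ q L))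
    (b : BQ q L) : b ∈ (smulMax L G q g 𝔫).asIdeal ↔ (bqAut L G q g).symm b ∈ 𝔫.asIdeal :=
  Iff.rfl

theorem sPlaceSMul_back (q : S) (g : G) (𝔫 : MaximalSpectrum (BQ (q.1 : ℕ) L)) :
    sPlaceSMul S G g (back S L ⟨q, 𝔫⟩) = back S L ⟨q, smulMax L G (q.1 : ℕ) g 𝔫⟩ := by
  refine MaximalSpectrum.ext (Ideal.ext fun x => ?_)
  rw [mem_sPlaceSMul_iff, mem_back_iff, mem_back_iff, mem_smulMax_iff, piq_asAut]
  have h : x = asAut S G L g (asAut S G L g⁻¹ x) := by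
    rw [map_inv]
    exact ((asAut S G L g).apply_symm_apply x).symm
  conv_rhs => rw [h, piq_asAut, AlgEquiv.symm_apply_apply]
  rw [piq_asAut]

/-- The isomorphism `F_𝔫 → F_{g 𝔫}` induced by `g`. -/
def fqMap (q : ℕ) [Fact q.Prime] (g : G) (𝔫 : MaximalSpectrum (BQ q L)) :
    FQ q L 𝔫 →ₐ[ℚ_[q]] FQ q L (smulMax L G q g 𝔫) :=
  Ideal.quotientMapₐ (smulMax L G q g 𝔫).asIdeal (bqAut L G q g : BQ q L →ₐ[ℚ_[q]] BQ q L)
    (fun x hx => by
      change (bqAut L G q g).symm (bqAut L G q g x) ∈ 𝔫.asIdeal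
      rwa [AlgEquiv.symm_apply_apply])

theorem fqMap_toFQ (q : ℕ) [Fact q.Prime] (g : G) (𝔫 : MaximalSpectrum (BQ q L)) (l : L) :
    fqMap L G q g 𝔫 (toFQ 𝔫 l) = toFQ (smulMax L G q g 𝔫) (g • l) := by
  change FQ.mk (smulMax L G q g 𝔫) (bqAut L G q g ((1 : ℚ_[q]) ⊗ₜ[ℚ] l)) = _
  rw [bqAut_tmul]
  rfl

theorem placeOf_smulMax (q : ℕ) [Fact q.Prime] (g : G) (𝔫 : MaximalSpectrum (BQ q L)) :
    placeOf (smulMax L G q g 𝔫) = primeSMul G g (placeOf 𝔫) := by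
  refine HeightOneSpectrum.ext (Ideal.ext fun x => ?_)
  rw [mem_primeSMul_iff]
  haveI := FQ.finiteDimensional 𝔫
  haveI := FQ.finiteDimensional (smulMax L G q g 𝔫)
  refine (placeIdeal_congr q (toFQ 𝔫) (toFQ (smulMax L G q g 𝔫))
    ((fqMap L G q g 𝔫).restrictScalars ℤ_[q]) (g⁻¹ • x) x ?_).symm
  change fqMap L G q g 𝔫 (toFQ 𝔫 (g⁻¹ • (x : L))) = _
  rw [fqMap_toFQ, smul_inv_smul]

/-- **G-PL1**, clause 1. -/
theorem placeBij_smul (g : G) (𝔪 : SPlace S L) :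
    (placeBij S L (sPlaceSMul S G g 𝔪)).1 = primeSMul G g (placeBij S L 𝔪).1 := by
  obtain ⟨⟨q, 𝔫⟩, rfl⟩ := back_surjective S L 𝔪
  rw [sPlaceSMul_back, placeBij_back, placeBij_back, placeOf_smulMax]

end Equivariance

/-- **G-PL1.**  The places above `S` of the tensor model are the primes above `S`. -/
theorem placePrime : PlacePrimeSpec := fun S L _ _ =>
  ⟨placeBij S L, fun G _ _ g 𝔪 => placeBij_smul S L G g 𝔪,
    fun 𝔪 A hA x => mem_placeBij_iff S L 𝔪 A hA x⟩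

end

end Fermat.Agent.S55.G.Places177
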