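import Fermat.Agent.S55.G.Places177.Surj

/-!
# S55, layer G, leaf G-PLACES (helper177), part 4: `placeOf` is a bijection

* `placeOf_injective`, `exists_placeOf_eq` (part 3), `placeEquiv`:
  `MaximalSpectrum (ℚ_q ⊗ L) ≃ {w : HeightOneSpectrum (𝓞 L) // (q : 𝓞 L) ∈ w.asIdeal}`;
* `finrank_FQ` : `[F_𝔪 : ℚ_q] = e(w/ℤ) * f(w/ℤ)` for `w = placeOf 𝔪`.
-/

set_option autoImplicit false
set_option linter.style.haveILetI false
set_option linter.unusedSectionVars false

open scoped NumberField TensorProduct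
open IsLocalRing

namespace Fermat.Agent.S55.G.Places177

/-- Counting lemma: a surjection `Φ : M → P` of finite types with positive weights `g` on `P`,
weights `d ≥ g ∘ Φ` on `M` and equal total weight is a bijection, and `d = g ∘ Φ`. -/
theorem injective_of_counting {M P : Type} [Fintype M] [Fintype P]
    (Φ : M → P) (g : P → ℕ) (d : M → ℕ)
    (hg : ∀ p, 0 < g p) (hle : ∀ m, g (Φ m) ≤ d m) (hsum : ∑ m, d m = ∑ p, g p)
    (hsurj : Function.Surjective Φ) : Function.Injective Φ ∧ ∀ m, d m = g (Φ m) := by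
  classical
  have key : ∀ p, g p ≤ ∑ m with Φ m = p, d m := by
    intro p
    obtain ⟨m, rfl⟩ := hsurj p
    calc g (Φ m) ≤ d m := hle m
      _ ≤ ∑ m' with Φ m' = Φ m, d m' :=
        Finset.single_le_sum (f := d) (fun _ _ => Nat.zero_le _)
          (Finset.mem_filter.mpr ⟨Finset.mem_univ m, rfl⟩)
  have hs : ∑ p, g p = ∑ p, ∑ m with Φ m = p, d m := by
    rw [← hsum]
    exact (Finset.sum_fiberwise (Finset.univ) Φ d).symm
  have heq : ∀ p, g p = ∑ m with Φ m = p, d m := fun p =>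
    (Finset.sum_eq_sum_iff_of_le (fun p _ => key p)).mp hs p (Finset.mem_univ p)
  constructor
  · intro m₁ m₂ h
    by_contra hne
    have hsub : ({m₁, m₂} : Finset M) ⊆ Finset.univ.filter (fun m => Φ m = Φ m₁) := by
      intro m hm
      rw [Finset.mem_insert, Finset.mem_singleton] at hm
      rcases hm with rfl | rfl
      · exact Finset.mem_filter.mpr ⟨Finset.mem_univ _, rfl⟩
      · exact Finset.mem_filter.mpr ⟨Finset.mem_univ _, h.symm⟩
    have h1 := Finset.sum_le_sum_of_subset (f := d) hsub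
    rw [Finset.sum_pair hne, ← heq] at h1
    have h2 := hle m₁
    have h3 := hle m₂
    rw [← h] at h3
    have := hg (Φ m₁)
    omega
  · intro m
    apply le_antisymm _ (hle m)
    rw [heq (Φ m)]
    exact Finset.single_le_sum (f := d) (fun _ _ => Nat.zero_le _)
      (Finset.mem_filter.mpr ⟨Finset.mem_univ m, rfl⟩)


noncomputable section

variable {q : ℕ} [Fact q.Prime] {L : Type} [Field L] [NumberField L]

theorem span_int_isPrime (q : ℕ) [Fact q.Prime] : (Ideal.span {(q : ℤ)}).IsPrime :=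
  (span_int_isMaximal q).isPrime

/-- A prime of `𝓞 L` containing `q` lies over `(q) ⊂ ℤ`. -/
theorem liesOver_of_natCast_mem (w : Ideal (𝓞 L)) [hw : w.IsPrime] (hq : ((q : ℕ) : 𝓞 L) ∈ w) :
    w.LiesOver (Ideal.span {(q : ℤ)}) := by
  refine ⟨?_⟩
  have hle : Ideal.span {(q : ℤ)} ≤ w.under ℤ := by
    rw [Ideal.span_singleton_le_iff_mem, Ideal.under_def, Ideal.mem_comap]
    simpa using hq
  have hne : w.under ℤ ≠ ⊤ := by
    haveI : (w.under ℤ).IsPrime := Ideal.comap_isPrime _ _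
    exact Ideal.IsPrime.ne_top inferInstance
  exact (span_int_isMaximal q).eq_of_le hne hle

theorem natCast_mem_of_liesOver (w : Ideal (𝓞 L)) [hw : w.LiesOver (Ideal.span {(q : ℤ)})] :
    ((q : ℕ) : 𝓞 L) ∈ w := by
  have h1 : (q : ℤ) ∈ w.under ℤ := by
    rw [← hw.over]
    exact Ideal.subset_span (Set.mem_singleton _)
  rw [Ideal.under_def, Ideal.mem_comap] at h1
  simpa using h1

/-- `placeOf` as a map to the primes over `(q)`. -/
def placeOver (𝔪 : MaximalSpectrum (BQ q L)) : (Ideal.span {(q : ℤ)}).primesOver (𝓞 L) :=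
  ⟨(placeOf 𝔪).asIdeal, (placeOf 𝔪).isPrime,
    haveI := (placeOf 𝔪).isPrime
    liesOver_of_natCast_mem _ (natCast_mem_placeOf 𝔪)⟩

theorem placeOver_surjective :
    Function.Surjective (placeOver : MaximalSpectrum (BQ q L) → _) := by
  rintro ⟨P, hP, hPo⟩
  have hq : ((q : ℕ) : 𝓞 L) ∈ P := natCast_mem_of_liesOver P
  have hP0 : P ≠ ⊥ := by
    intro h
    rw [h, Ideal.mem_bot] at hq
    have : ((q : ℕ) : 𝓞 L) ≠ 0 := by
      exact_mod_cast (Nat.cast_ne_zero (R := 𝓞 L)).mpr (Fact.out : q.Prime).ne_zero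
    exact this hq
  obtain ⟨𝔪, h𝔪⟩ := exists_placeOf_eq (q := q) ⟨P, hP, hP0⟩ hq
  refine ⟨𝔪, Subtype.ext ?_⟩
  simp only [placeOver, h𝔪]

theorem sum_finrank_FQ [Fintype (MaximalSpectrum (BQ q L))] :
    ∑ 𝔪 : MaximalSpectrum (BQ q L), Module.finrank ℚ_[q] (FQ q L 𝔪) = Module.finrank ℚ L := by
  haveI := isArtinianRing_BQ q L
  haveI := isReduced_BQ q L
  rw [← finrank_BQ q L, ← Module.finrank_pi_fintype ℚ_[q]]
  exact (((IsArtinianRing.equivPi (BQ q L)).restrictScalars ℚ_[q]).toLinearEquiv.finrank_eq).symm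

theorem sum_ram_inertia [Fintype ((Ideal.span {(q : ℤ)}).primesOver (𝓞 L))] :
    ∑ P : (Ideal.span {(q : ℤ)}).primesOver (𝓞 L),
      P.1.ramificationIdx ℤ * P.1.inertiaDeg ℤ = Module.finrank ℚ L := by
  haveI := span_int_isPrime q
  rw [Ideal.sum_ramification_inertia_eq_finrank, NumberField.RingOfIntegers.rank]

theorem placeOver_counting :
    Function.Injective (placeOver : MaximalSpectrum (BQ q L) → _) ∧
      ∀ 𝔪 : MaximalSpectrum (BQ q L), Module.finrank ℚ_[q] (FQ q L 𝔪) =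
        (placeOf 𝔪).asIdeal.ramificationIdx ℤ * (placeOf 𝔪).asIdeal.inertiaDeg ℤ := by
  classical
  haveI := isArtinianRing_BQ q L
  letI : Fintype (MaximalSpectrum (BQ q L)) := Fintype.ofFinite _
  letI : Fintype ((Ideal.span {(q : ℤ)}).primesOver (𝓞 L)) := Fintype.ofFinite _
  refine injective_of_counting placeOver
    (fun P => P.1.ramificationIdx ℤ * P.1.inertiaDeg ℤ)
    (fun 𝔪 => Module.finrank ℚ_[q] (FQ q L 𝔪)) ?_ ?_ ?_ placeOver_surjective
  · rintro ⟨P, hP, hPo⟩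
    exact Nat.mul_pos (Ideal.ramificationIdx_pos P ℤ) (Ideal.inertiaDeg_pos P ℤ)
  · intro 𝔪
    haveI := FQ.finiteDimensional 𝔪
    exact ramificationIdx_mul_inertiaDeg_le q (F := FQ q L 𝔪) (toFQ 𝔪)
  · rw [sum_finrank_FQ, sum_ram_inertia]

/-- **G-PLACES, injectivity.** -/
theorem placeOf_injective :
    Function.Injective (placeOf : MaximalSpectrum (BQ q L) → _) := by
  intro 𝔪₁ 𝔪₂ h
  apply placeOver_counting.1
  apply Subtype.ext
  simp only [placeOver, h]

/-- **G-PLACES, local degree.**  `[F_𝔪 : ℚ_q] = e(w) f(w)`, `w = placeOf 𝔪`. -/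
theorem finrank_FQ (𝔪 : MaximalSpectrum (BQ q L)) :
    Module.finrank ℚ_[q] (FQ q L 𝔪) =
      (placeOf 𝔪).asIdeal.ramificationIdx ℤ * (placeOf 𝔪).asIdeal.inertiaDeg ℤ :=
  placeOver_counting.2 𝔪

/-- **G-PLACES.**  Maximal ideals of `ℚ_q ⊗ L` correspond bijectively to the primes of `L`
above `q`. -/
def placeEquiv : MaximalSpectrum (BQ q L) ≃
    {w : IsDedekindDomain.HeightOneSpectrum (𝓞 L) // ((q : ℕ) : 𝓞 L) ∈ w.asIdeal} :=
  Equiv.ofBijective (fun 𝔪 => ⟨placeOf 𝔪, natCast_mem_placeOf 𝔪⟩)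
    ⟨fun 𝔪₁ 𝔪₂ h => placeOf_injective (congrArg Subtype.val h),
      fun w => by
        obtain ⟨𝔪, h𝔪⟩ := exists_placeOf_eq w.1 w.2
        exact ⟨𝔪, Subtype.ext h𝔪⟩⟩

@[simp] theorem placeEquiv_apply (𝔪 : MaximalSpectrum (BQ q L)) :
    ((placeEquiv 𝔪 : {w : IsDedekindDomain.HeightOneSpectrum (𝓞 L) //
      ((q : ℕ) : 𝓞 L) ∈ w.asIdeal}) : IsDedekindDomain.HeightOneSpectrum (𝓞 L)) = placeOf 𝔪 :=
  rfl

end

end Fermat.Agent.S55.G.Places177
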