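import Fermat.Agent.S55.G.Places177.Local

/-!
# S55, layer G, leaf G-PLACES (helper177), part 2: maximal ideals of `ℚ_q ⊗ L` and primes above `q`

`BQ q L = ℚ_[q] ⊗[ℚ] L`;  for `𝔪 : MaximalSpectrum (BQ q L)` the quotient `FQ q L 𝔪` is a finite
extension of `ℚ_[q]` receiving `L`;  `placeOf q L 𝔪 := place q (toFQ q L 𝔪)`.
-/

set_option autoImplicit false
set_option linter.style.haveILetI false
set_option linter.unusedSectionVars false

open scoped NumberField TensorProduct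
open IsLocalRing

namespace Fermat.Agent.S55.G.Places177

noncomputable section

variable (q : ℕ) [Fact q.Prime] (L : Type) [Field L] [NumberField L]

/-- The semilocal algebra `ℚ_q ⊗_ℚ L = ∏_{w | q} L_w`. -/
abbrev BQ : Type := ℚ_[q] ⊗[ℚ] L

theorem isArtinianRing_BQ : IsArtinianRing (BQ q L) := IsArtinianRing.of_finite ℚ_[q] _

theorem isReduced_BQ : IsReduced (BQ q L) := by
  haveI : Algebra.FormallyUnramified ℚ L := Algebra.FormallyUnramified.of_isSeparable ℚ L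
  haveI : Algebra.FormallyUnramified ℚ_[q] (BQ q L) := inferInstance
  exact Algebra.FormallyUnramified.isReduced_of_field ℚ_[q] _

theorem finrank_BQ : Module.finrank ℚ_[q] (BQ q L) = Module.finrank ℚ L :=
  Module.finrank_baseChange

/-- The local field `F_𝔪 = (ℚ_q ⊗ L) / 𝔪`. -/
abbrev FQ (𝔪 : MaximalSpectrum (BQ q L)) : Type := BQ q L ⧸ 𝔪.asIdeal

/-- The field structure on `F_𝔪` (scoped: `open scoped Fermat.Agent.S55.G.Places177`). -/
scoped instance instFieldFQ (𝔪 : MaximalSpectrum (BQ q L)) : Field (BQ q L ⧸ 𝔪.asIdeal) :=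
  haveI := 𝔪.isMaximal
  Ideal.Quotient.field 𝔪.asIdeal

variable {q L} in
theorem FQ.finiteDimensional (𝔪 : MaximalSpectrum (BQ q L)) :
    FiniteDimensional ℚ_[q] (FQ q L 𝔪) :=
  inferInstanceAs (Module.Finite ℚ_[q] (BQ q L ⧸ 𝔪.asIdeal))

variable {q L} in
/-- The quotient map `ℚ_q ⊗ L → F_𝔪`. -/
def FQ.mk (𝔪 : MaximalSpectrum (BQ q L)) : BQ q L →ₐ[ℚ_[q]] FQ q L 𝔪 :=
  Ideal.Quotient.mkₐ ℚ_[q] 𝔪.asIdeal

variable {q L} in
theorem FQ.mk_surjective (𝔪 : MaximalSpectrum (BQ q L)) : Function.Surjective (FQ.mk 𝔪) :=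
  Ideal.Quotient.mk_surjective

variable {q L} in
theorem FQ.mk_eq_zero_iff (𝔪 : MaximalSpectrum (BQ q L)) (b : BQ q L) :
    FQ.mk 𝔪 b = 0 ↔ b ∈ 𝔪.asIdeal :=
  Ideal.Quotient.eq_zero_iff_mem

/-- The embedding `L → ℚ_q ⊗ L`, `x ↦ 1 ⊗ x`. -/
def inclL : L →ₐ[ℚ] BQ q L := Algebra.TensorProduct.includeRight

@[simp] theorem inclL_apply (x : L) : inclL q L x = (1 : ℚ_[q]) ⊗ₜ[ℚ] x := rfl

variable {q L} in
/-- The embedding `L → F_𝔪`. -/
def toFQ (𝔪 : MaximalSpectrum (BQ q L)) : L →+* FQ q L 𝔪 :=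
  ((FQ.mk 𝔪 : BQ q L →+* FQ q L 𝔪)).comp (inclL q L : L →+* BQ q L)

variable {q L} in
/-- The prime of `L` above `q` attached to a maximal ideal of `ℚ_q ⊗ L`. -/
def placeOf (𝔪 : MaximalSpectrum (BQ q L)) : IsDedekindDomain.HeightOneSpectrum (𝓞 L) :=
  haveI := FQ.finiteDimensional 𝔪
  place q (F := FQ q L 𝔪) (toFQ 𝔪)

variable {q L} in
theorem natCast_mem_placeOf (𝔪 : MaximalSpectrum (BQ q L)) :
    ((q : ℕ) : 𝓞 L) ∈ (placeOf 𝔪).asIdeal :=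
  haveI := FQ.finiteDimensional 𝔪
  natCast_mem_placeIdeal q (F := FQ q L 𝔪) (toFQ 𝔪)

variable {q L} in
theorem mem_placeOf_iff (𝔪 : MaximalSpectrum (BQ q L)) (x : 𝓞 L) :
    x ∈ (placeOf 𝔪).asIdeal ↔
      ¬ ∃ z : FQ q L 𝔪, IsIntegral ℤ_[q] z ∧ toFQ 𝔪 (x : L) * z = 1 :=
  haveI := FQ.finiteDimensional 𝔪
  mem_placeIdeal_iff q (F := FQ q L 𝔪) (toFQ 𝔪) x

end

end Fermat.Agent.S55.G.Places177

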