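import Fermat.Agent.S55.G.Places177.Semilocal
import Fermat.Agent.S55.L.RingOfIntegersUnique775

/-!
# S55 layer G, leaf G-PL1 (helper177), part 2: intrinsic description of the place

For a finite extension `F` of `ℚ_q` and a ring homomorphism `ι : L →+* F` from a number field:

* `mem_iff_isIntegral_of_isLocalRingOfIntegers`: a valuation subring `A` of `F` which is a complete
  discrete valuation ring with finite residue field is the integral closure of `ℤ_q`;
* `mem_placeIdeal_iff_nonunits`: `x ∈ placeIdeal q ι ↔ ι x ∈ A.nonunits`;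
* `placeIdeal_congr`: functoriality of `placeIdeal` under `ℤ_q`-algebra homomorphisms `F → F'`
  and automorphisms of `L`.
-/

set_option autoImplicit false
set_option linter.unusedSectionVars false
set_option linter.style.haveILetI false

open scoped NumberField TensorProduct
open IsLocalRing

namespace Fermat.Agent.S55.G.Places177

open Fermat.Agent.S55.G Fermat.Agent.S55.G.PL0H713

noncomputable section

section Local

variable (q : ℕ) [Fact q.Prime]
variable {L : Type} [Field L] [NumberField L]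
variable {F : Type} [Field F] [Algebra ℚ_[q] F] [Algebra ℤ_[q] F] [IsScalarTower ℤ_[q] ℚ_[q] F]
  [FiniteDimensional ℚ_[q] F]

/-- A ring of integers of a finite extension of `ℚ_q` is the integral closure of `ℤ_q`. -/
theorem mem_iff_isIntegral_of_isLocalRingOfIntegers (A : ValuationSubring F)
    (hA : Fermat.Agent.S55.L.IsLocalRingOfIntegers A) (z : F) :
    z ∈ A ↔ IsIntegral ℤ_[q] z := by
  haveI := isLocalFld_of_finite_padic q F
  have h := Fermat.Agent.S55.L.ringOfIntegersUnique775 F A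
    (Fermat.Agent.S55.Local.H713.intVS ℤ_[q] ℚ_[q] F) hA (isLocalRingOfIntegers_intVS q F)
  rw [h, Fermat.Agent.S55.Local.H713.mem_intVS]
  unfold Fermat.Agent.S55.Local.IsInt Fermat.Agent.S55.Local.toL
  rw [IsIntegral, IsScalarTower.algebraMap_eq ℤ_[q] ℚ_[q] F]

/-- The place cut out by `ι : L → F` in terms of any ring of integers of `F`. -/
theorem mem_placeIdeal_iff_nonunits (ι : L →+* F) (A : ValuationSubring F)
    (hA : Fermat.Agent.S55.L.IsLocalRingOfIntegers A) (x : 𝓞 L) :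
    x ∈ placeIdeal q ι ↔ ι (x : L) ∈ A.nonunits := by
  have hint := mem_iff_isIntegral_of_isLocalRingOfIntegers q A hA
  have hx : ι (x : L) ∈ A := (hint _).2 (isIntegral_of_ringOfIntegers q ι x)
  rw [mem_placeIdeal_iff, ValuationSubring.mem_nonunits_iff_exists_mem_maximalIdeal]
  constructor
  · intro h
    refine ⟨hx, ?_⟩
    rw [mem_maximalIdeal, mem_nonunits_iff]
    intro hu
    obtain ⟨z, hz⟩ := hu.exists_right_inv
    exact h ⟨(z : F), (hint _).1 z.2, congrArg Subtype.val hz⟩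
  · rintro ⟨hx', hm⟩ ⟨z, hz, hxz⟩
    rw [mem_maximalIdeal, mem_nonunits_iff] at hm
    apply hm
    exact IsUnit.of_mul_eq_one ⟨z, (hint _).2 hz⟩ (Subtype.ext hxz)

variable {F' : Type} [Field F'] [Algebra ℚ_[q] F'] [Algebra ℤ_[q] F']
  [IsScalarTower ℤ_[q] ℚ_[q] F'] [FiniteDimensional ℚ_[q] F']

/-- Functoriality of the place: if `ψ : F → F'` is a `ℤ_q`-algebra homomorphism and
`ψ (ι y) = ι' (σ y)` for an endomorphism `σ` of `L`, then `x ∈ w_ι ↔ σ x ∈ w_ι'`. -/
theorem placeIdeal_congr (ι : L →+* F) (ι' : L →+* F') (ψ : F →ₐ[ℤ_[q]] F') (x x' : 𝓞 L)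
    (h : ψ (ι (x : L)) = ι' (x' : L)) :
    x ∈ placeIdeal q ι ↔ x' ∈ placeIdeal q ι' := by
  rw [mem_placeIdeal_iff, mem_placeIdeal_iff, not_iff_not]
  constructor
  · rintro ⟨z, hz, hxz⟩
    refine ⟨ψ z, hz.map ψ, ?_⟩
    rw [← h, ← map_mul, hxz, map_one]
  · rintro ⟨z', hz', hxz'⟩
    have hne : ι (x : L) ≠ 0 := by
      intro h0
      rw [h0, map_zero] at h
      rw [← h, zero_mul] at hxz'
      exact zero_ne_one hxz'
    have hz'eq : z' = ψ (ι (x : L))⁻¹ := by
      rw [map_inv₀, h]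
      exact eq_inv_of_mul_eq_one_right hxz'
    refine ⟨(ι (x : L))⁻¹, ?_, mul_inv_cancel₀ hne⟩
    rw [hz'eq] at hz'
    exact (isIntegral_algHom_iff ψ ψ.injective).1 hz'


omit [FiniteDimensional ℚ_[q] F'] [IsScalarTower ℤ_[q] ℚ_[q] F'] [Algebra ℤ_[q] F']
  [Algebra ℚ_[q] F'] [Field F'] in
/-- The place cut out by `ι : L → F` in terms of any ring of integers of any field `E`
isomorphic to `F` (as a ring, compatibly with the embeddings of `L`). -/
theorem mem_placeIdeal_iff_nonunits_of_ringEquiv {E : Type} [Field E] (φ : E ≃+* F)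
    (ιE : L →+* E) (ι : L →+* F) (hι : ∀ l : L, φ (ιE l) = ι l)
    (A : ValuationSubring E) (hA : Fermat.Agent.S55.L.IsLocalRingOfIntegers A) (x : 𝓞 L) :
    x ∈ placeIdeal q ι ↔ ιE (x : L) ∈ A.nonunits := by
  letI : Algebra ℚ_[q] E := ((φ.symm : F →+* E).comp (algebraMap ℚ_[q] F)).toAlgebra
  letI : Algebra ℤ_[q] E := ((algebraMap ℚ_[q] E).comp (algebraMap ℤ_[q] ℚ_[q])).toAlgebra
  haveI : IsScalarTower ℤ_[q] ℚ_[q] E := IsScalarTower.of_algebraMap_eq (fun _ => rfl)
  let ψQ : E ≃ₐ[ℚ_[q]] F :=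
    AlgEquiv.ofRingEquiv (f := φ) (fun a => by
      change φ (φ.symm (algebraMap _ _ a)) = _
      rw [RingEquiv.apply_symm_apply])
  haveI : FiniteDimensional ℚ_[q] E := ψQ.symm.toLinearEquiv.finiteDimensional
  let ψ : E →ₐ[ℤ_[q]] F := (ψQ : E →ₐ[ℚ_[q]] F).restrictScalars ℤ_[q]
  have h1 := placeIdeal_congr q ιE ι ψ x x (hι (x : L))
  have h2 := mem_placeIdeal_iff_nonunits q ιE A hA x
  rw [← h2, h1]

end Local

end

end Fermat.Agent.S55.G.Places177
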