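import Mathlib
import Fermat.Agent.S55.Local.H885.LF0

/-!
# S55, layer G, leaf G-PLACES (helper177), part 1: the place cut out by a local embedding

`L` a number field, `F` a finite extension of `ℚ_[q]`, `ι : L →+* F` a ring homomorphism.
The ring of integers `O_F = integralClosure ℤ_[q] F` is a complete DVR (LF0); the contraction of
its maximal ideal to `𝓞 L` is a prime `place ι` of `L` above `q`.

Main results:
* `mem_placeIdeal_iff` : `x ∈ placeIdeal q ι ↔ ¬ ∃ z, IsIntegral ℤ_[q] z ∧ ι x * z = 1`;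
* `natCast_mem_placeIdeal` : `(q : 𝓞 L) ∈ placeIdeal q ι`;
* `ramificationIdx_mul_inertiaDeg_le` : `e(w/ℤ) * f(w/ℤ) ≤ [F : ℚ_q]` for `w = placeIdeal q ι`.
-/

set_option autoImplicit false
set_option linter.style.haveILetI false
set_option linter.unusedSectionVars false

open scoped NumberField
open IsLocalRing

namespace Fermat.Agent.S55.G.Places177

noncomputable section

section LocalField

variable (q : ℕ) [Fact q.Prime]
variable (F : Type) [Field F] [Algebra ℚ_[q] F] [Algebra ℤ_[q] F] [IsScalarTower ℤ_[q] ℚ_[q] F]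
  [FiniteDimensional ℚ_[q] F]

/-- The ring of integers of the local field `F`. -/
abbrev OF : Subalgebra ℤ_[q] F := integralClosure ℤ_[q] F

theorem isLocalRing_OF : IsLocalRing (OF q F) :=
  Fermat.Agent.S55.Local.H885.isLocalRing_OL ℤ_[q] ℚ_[q] F

theorem isDVR_OF : IsDiscreteValuationRing (OF q F) :=
  Fermat.Agent.S55.Local.H885.isDVR_OL ℤ_[q] ℚ_[q] F

theorem finite_OF : Module.Finite ℤ_[q] (OF q F) :=
  Fermat.Agent.S55.Local.H885.finite_OL ℤ_[q] ℚ_[q] F

theorem isFractionRing_OF : IsFractionRing (OF q F) F :=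
  Fermat.Agent.S55.Local.H885.isFractionRing_OL ℤ_[q] ℚ_[q] F

theorem isLocalHom_OF : IsLocalHom (algebraMap ℤ_[q] (OF q F)) :=
  Fermat.Agent.S55.Local.H885.isLocalHom_AOL ℤ_[q] ℚ_[q] F

/-- The maximal ideal of the ring of integers of `F`. -/
def mF : Ideal (OF q F) :=
  letI := isLocalRing_OF q F
  maximalIdeal (OF q F)

theorem mF_isMaximal : (mF q F).IsMaximal := by
  letI := isLocalRing_OF q F
  exact maximalIdeal.isMaximal _

theorem mem_mF_iff (y : OF q F) : y ∈ mF q F ↔ ¬ IsUnit y := by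
  letI := isLocalRing_OF q F
  exact mem_maximalIdeal y

/-- An element of `O_F` is a unit iff its inverse in `F` is integral. -/
theorem isUnit_OF_iff (y : OF q F) :
    IsUnit y ↔ ∃ z : F, IsIntegral ℤ_[q] z ∧ (y : F) * z = 1 := by
  constructor
  · rintro ⟨u, rfl⟩
    refine ⟨((u⁻¹ : (OF q F)ˣ) : OF q F), (u⁻¹ : (OF q F)ˣ).1.2, ?_⟩
    have : ((u : OF q F) * ((u⁻¹ : (OF q F)ˣ) : OF q F) : OF q F) = 1 := by simp
    exact_mod_cast congrArg (Subtype.val) this
  · rintro ⟨z, hz, hyz⟩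
    refine IsUnit.of_mul_eq_one (⟨z, hz⟩ : OF q F) ?_
    exact Subtype.ext hyz

theorem natCast_mem_mF : ((q : ℕ) : OF q F) ∈ mF q F := by
  rw [mem_mF_iff]
  intro h
  haveI := isLocalHom_OF q F
  have h1 : IsUnit ((q : ℕ) : ℤ_[q]) := by
    apply isUnit_of_map_unit (algebraMap ℤ_[q] (OF q F))
    simpa using h
  exact PadicInt.p_nonunit (p := q) h1

end LocalField

section Place

variable (q : ℕ) [Fact q.Prime]
variable {L : Type} [Field L] [NumberField L]
variable {F : Type} [Field F] [Algebra ℚ_[q] F] [Algebra ℤ_[q] F] [IsScalarTower ℤ_[q] ℚ_[q] F]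
  [FiniteDimensional ℚ_[q] F]
variable (ι : L →+* F)

theorem isIntegral_of_ringOfIntegers (x : 𝓞 L) : IsIntegral ℤ_[q] (ι (x : L)) := by
  have h1 : IsIntegral ℤ (x : L) := NumberField.RingOfIntegers.isIntegral_coe x
  have h2 : IsIntegral ℤ (ι (x : L)) := h1.map ι.toIntAlgHom
  exact h2.tower_top

/-- The ring homomorphism `𝓞 L → O_F` induced by `ι : L →+* F`. -/
def toOF : 𝓞 L →+* OF q F :=
  (ι.comp (algebraMap (𝓞 L) L)).codRestrict (OF q F).toSubring
    (fun x => isIntegral_of_ringOfIntegers q ι x)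

@[simp] theorem coe_toOF (x : 𝓞 L) : ((toOF q ι x : OF q F) : F) = ι (x : L) := rfl

theorem toOF_injective : Function.Injective (toOF q ι) := by
  intro x y h
  have := congrArg (Subtype.val) h
  simp only [coe_toOF] at this
  exact NumberField.RingOfIntegers.ext (ι.injective this)

/-- The contraction to `𝓞 L` of the maximal ideal of the ring of integers of `F`. -/
def placeIdeal : Ideal (𝓞 L) := (mF q F).comap (toOF q ι)

theorem placeIdeal_isPrime : (placeIdeal q ι).IsPrime := by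
  haveI := (mF_isMaximal q F).isPrime
  exact Ideal.comap_isPrime _ _

theorem mem_placeIdeal_iff (x : 𝓞 L) :
    x ∈ placeIdeal q ι ↔ ¬ ∃ z : F, IsIntegral ℤ_[q] z ∧ ι (x : L) * z = 1 := by
  rw [placeIdeal, Ideal.mem_comap, mem_mF_iff, isUnit_OF_iff]
  rfl

theorem natCast_mem_placeIdeal : ((q : ℕ) : 𝓞 L) ∈ placeIdeal q ι := by
  rw [placeIdeal, Ideal.mem_comap, map_natCast]
  exact natCast_mem_mF q F

theorem placeIdeal_ne_bot : placeIdeal q ι ≠ ⊥ := by
  intro h
  have h1 := natCast_mem_placeIdeal q ι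
  rw [h, Ideal.mem_bot] at h1
  have : ((q : ℕ) : 𝓞 L) ≠ 0 := by
    exact_mod_cast (Nat.cast_ne_zero (R := 𝓞 L)).mpr (Fact.out : q.Prime).ne_zero
  exact this h1

/-- The place of `L` above `q` cut out by `ι : L →+* F`. -/
def place : IsDedekindDomain.HeightOneSpectrum (𝓞 L) :=
  ⟨placeIdeal q ι, placeIdeal_isPrime q ι, placeIdeal_ne_bot q ι⟩

@[simp] theorem place_asIdeal : (place q ι).asIdeal = placeIdeal q ι := rfl

end Place

section PadicBase
variable (q : ℕ) [Fact q.Prime]

/-- `qℤ_q ∩ ℤ = qℤ`. -/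
theorem under_maximalIdeal_padicInt :
    (maximalIdeal ℤ_[q]).under ℤ = Ideal.span {(q : ℤ)} := by
  ext k
  rw [Ideal.mem_span_singleton, Ideal.under_def, Ideal.mem_comap, mem_maximalIdeal, mem_nonunits_iff,
    PadicInt.isUnit_iff, ← PadicInt.norm_int_lt_one_iff_dvd]
  simp only [algebraMap_int_eq, eq_intCast]
  have := PadicInt.norm_le_one (k : ℤ_[q])
  constructor
  · intro h
    exact lt_of_le_of_ne this h
  · intro h
    exact ne_of_lt h

theorem ramificationIdx_maximalIdeal_padicInt :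
    (maximalIdeal ℤ_[q]).ramificationIdx ℤ = 1 := by
  rw [Ideal.ramificationIdx_def, ENat.toNat_eq_iff_eq_natCast, Nat.cast_one,
    Module.length_eq_one_iff, isSimpleModule_iff_isCoatom, ← Ideal.isMaximal_def,
    IsLocalRing.isMaximal_iff, under_maximalIdeal_padicInt,
    ← Localization.AtPrime.map_eq_maximalIdeal (I := maximalIdeal ℤ_[q])]
  have h : maximalIdeal ℤ_[q] = Ideal.map (algebraMap ℤ ℤ_[q]) (Ideal.span {(q : ℤ)}) := by
    rw [PadicInt.maximalIdeal_eq_span_p, Ideal.map_span]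
    simp
  have h2 := congrArg
    (Ideal.map (algebraMap ℤ_[q] (Localization.AtPrime (maximalIdeal ℤ_[q])))) h
  rw [h2, Ideal.map_map, ← IsScalarTower.algebraMap_eq]

theorem span_liesOver_padicInt :
    (maximalIdeal ℤ_[q]).LiesOver (Ideal.span {(q : ℤ)}) :=
  ⟨(under_maximalIdeal_padicInt q).symm⟩

theorem span_int_isMaximal : (Ideal.span {(q : ℤ)}).IsMaximal := by
  have hq : Prime (q : ℤ) := Nat.prime_iff_prime_int.mp (Fact.out : q.Prime)
  exact PrincipalIdealRing.isMaximal_of_irreducible hq.irreducible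

theorem inertiaDeg_maximalIdeal_padicInt :
    (maximalIdeal ℤ_[q]).inertiaDeg ℤ = 1 := by
  haveI := span_liesOver_padicInt q
  haveI := span_int_isMaximal q
  rw [Ideal.inertiaDeg_eq_of_isMaximal (Ideal.span {(q : ℤ)}) (maximalIdeal ℤ_[q])]
  apply Module.finrank_of_bijective_algebraMap
  constructor
  · rw [injective_iff_map_eq_zero]
    intro a ha
    obtain ⟨k, rfl⟩ := Ideal.Quotient.mk_surjective a
    rw [Ideal.Quotient.algebraMap_mk_of_liesOver, Ideal.Quotient.eq_zero_iff_mem] at ha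
    rw [Ideal.Quotient.eq_zero_iff_mem, ← under_maximalIdeal_padicInt q]
    exact ha
  · intro b
    obtain ⟨x, rfl⟩ := Ideal.Quotient.mk_surjective b
    refine ⟨Ideal.Quotient.mk _ (x.zmodRepr : ℤ), ?_⟩
    rw [Ideal.Quotient.algebraMap_mk_of_liesOver, Ideal.Quotient.eq]
    have := PadicInt.sub_zmodRepr_mem x
    rw [← Ideal.neg_mem_iff]
    simpa using this

end PadicBase

section Forward

variable (q : ℕ) [Fact q.Prime]
variable {L : Type} [Field L] [NumberField L]
variable {F : Type} [Field F] [Algebra ℚ_[q] F] [Algebra ℤ_[q] F] [IsScalarTower ℤ_[q] ℚ_[q] F]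
  [FiniteDimensional ℚ_[q] F]
variable (ι : L →+* F)

theorem mF_liesOver_padicInt : (mF q F).LiesOver (maximalIdeal ℤ_[q]) := by
  letI := isLocalRing_OF q F
  haveI := isLocalHom_OF q F
  refine ⟨?_⟩
  rw [Ideal.under_def]
  exact (IsLocalRing.maximalIdeal_comap (algebraMap ℤ_[q] (OF q F))).symm

/-- Every prime of `O_F` over `q ℤ_q` is the maximal ideal. -/
theorem eq_mF_of_liesOver (Q : Ideal (OF q F)) [Q.IsPrime] [hQ : Q.LiesOver (maximalIdeal ℤ_[q])] :
    Q = mF q F := by
  letI := isLocalRing_OF q F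
  haveI := isDVR_OF q F
  have hQ0 : Q ≠ ⊥ := by
    intro h
    have h1 : ((q : ℕ) : ℤ_[q]) ∈ Q.under ℤ_[q] := by
      rw [← hQ.over, PadicInt.maximalIdeal_eq_span_p]
      exact Ideal.subset_span (by simp)
    rw [Ideal.under_def, Ideal.mem_comap, h, Ideal.mem_bot, map_natCast] at h1
    have h2 : ((q : ℕ) : OF q F) ≠ 0 := by
      have hq0 : ((q : ℕ) : F) ≠ 0 := by
        have : ((q : ℕ) : ℚ_[q]) ≠ 0 := by
          exact_mod_cast (Fact.out : q.Prime).ne_zero
        have h3 := (algebraMap ℚ_[q] F).injective.ne this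
        simpa using h3
      intro h0
      apply hq0
      have := congrArg (Subtype.val) h0
      simpa using this
    exact h2 h1
  have hmax : Q.IsMaximal := Ring.DimensionLEOne.maximalOfPrime hQ0 inferInstance
  exact IsLocalRing.eq_maximalIdeal hmax

theorem ramificationIdx_mul_inertiaDeg_mF :
    (mF q F).ramificationIdx ℤ_[q] * (mF q F).inertiaDeg ℤ_[q] = Module.finrank ℚ_[q] F := by
  letI := isLocalRing_OF q F
  haveI := isDVR_OF q F
  haveI := finite_OF q F
  haveI := isFractionRing_OF q F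
  haveI := mF_liesOver_padicInt q (F := F)
  haveI : (mF q F).IsPrime := (mF_isMaximal q F).isPrime
  rw [IsFractionRing.finrank_eq ℤ_[q] ℚ_[q] (OF q F) F]
  have hsub : Subsingleton ((maximalIdeal ℤ_[q]).primesOver (OF q F)) := by
    refine ⟨fun Q Q' => ?_⟩
    apply Subtype.ext
    haveI := Q.2.1
    haveI := Q.2.2
    haveI := Q'.2.1
    haveI := Q'.2.2
    rw [eq_mF_of_liesOver q Q.1, eq_mF_of_liesOver q Q'.1]
  haveI := Fermat.Agent.S55.Local.H885.faithfulSMul_AOL ℤ_[q] ℚ_[q] F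
  haveI : Module.IsTorsionFree ℤ_[q] (OF q F) := inferInstance
  haveI : Module.Flat ℤ_[q] (OF q F) := inferInstance
  letI : Fintype ((maximalIdeal ℤ_[q]).primesOver (OF q F)) := Fintype.ofFinite _
  have hsum := Ideal.sum_ramification_inertia_eq_finrank (maximalIdeal ℤ_[q]) (OF q F)
  rw [Fintype.sum_subsingleton _ (Ideal.primesOver.mk (maximalIdeal ℤ_[q]) (mF q F))] at hsum
  exact hsum

theorem ramificationIdx_mul_inertiaDeg_dvd :
    (placeIdeal q ι).ramificationIdx ℤ * (placeIdeal q ι).inertiaDeg ℤ ∣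
      Module.finrank ℚ_[q] F := by
  letI : Algebra (𝓞 L) (OF q F) := (toOF q ι).toAlgebra
  haveI : (mF q F).LiesOver (placeIdeal q ι) := ⟨rfl⟩
  haveI := mF_liesOver_padicInt q (F := F)
  haveI := isDVR_OF q F
  haveI : FaithfulSMul (𝓞 L) (OF q F) :=
    (faithfulSMul_iff_algebraMap_injective _ _).mpr (toOF_injective q ι)
  haveI : Module.IsTorsionFree (𝓞 L) (OF q F) := inferInstance
  haveI : Module.Flat (𝓞 L) (OF q F) := inferInstance
  haveI := Fermat.Agent.S55.Local.H885.faithfulSMul_AOL ℤ_[q] ℚ_[q] F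
  haveI : Module.IsTorsionFree ℤ_[q] (OF q F) := inferInstance
  haveI : Module.Flat ℤ_[q] (OF q F) := inferInstance
  have e1 := Ideal.ramificationIdx_tower (R := ℤ) (placeIdeal q ι) (mF q F)
  have e2 := Ideal.ramificationIdx_tower (R := ℤ) (maximalIdeal ℤ_[q]) (mF q F)
  have f1 := Ideal.inertiaDeg_tower (R := ℤ) (placeIdeal q ι) (mF q F)
  have f2 := Ideal.inertiaDeg_tower (R := ℤ) (maximalIdeal ℤ_[q]) (mF q F)
  rw [ramificationIdx_maximalIdeal_padicInt, one_mul] at e2
  rw [inertiaDeg_maximalIdeal_padicInt, one_mul] at f2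
  rw [← ramificationIdx_mul_inertiaDeg_mF q (F := F), ← e2, ← f2, e1, f1]
  exact ⟨(mF q F).ramificationIdx (𝓞 L) * (mF q F).inertiaDeg (𝓞 L), by ring⟩

theorem ramificationIdx_mul_inertiaDeg_le :
    (placeIdeal q ι).ramificationIdx ℤ * (placeIdeal q ι).inertiaDeg ℤ ≤
      Module.finrank ℚ_[q] F :=
  Nat.le_of_dvd Module.finrank_pos (ramificationIdx_mul_inertiaDeg_dvd q ι)

end Forward

end

end Fermat.Agent.S55.G.Places177
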