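import Fermat.Agent.S55.G.Spec
import Fermat.Agent.S55.G.Places177.Bij
import Fermat.Agent.S55.G.PL0H713

/-!
# S55 layer G, leaf G-PL1 (helper177), part 1: `L ⊗ ℚ_S` versus the `ℚ_q ⊗ L`

For a finite set `S` of rational primes and a number field `L`:

* `piq S L q : AS S L →ₐ[ℚ] BQ q L`, the projection `L ⊗ ℚ_S → ℚ_q ⊗ L` (`q ∈ S`), surjective;
* `idem S L q`, the idempotent `1 ⊗ e_q`; `secq`, the additive section with
  `secq (piq x) = x * idem q`;
* `back S L : (Σ q : S, MaximalSpectrum (BQ q L)) → SPlace S L`, `(q, 𝔫) ↦ piq⁻¹ 𝔫`,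
  and `back_bijective`;
* `locEquiv S L q 𝔫 : LocField S (back ⟨q, 𝔫⟩) ≃+* FQ q L 𝔫`, compatible with the embeddings of `L`.
-/

set_option autoImplicit false
set_option linter.unusedSectionVars false
set_option linter.style.haveILetI false

open scoped NumberField TensorProduct
open IsLocalRing

namespace Fermat.Agent.S55.G.Places177

open Fermat.Agent.S55.G Fermat.Agent.S55.G.PL0H713

noncomputable section

variable (S : Finset Nat.Primes) (L : Type) [Field L] [NumberField L]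

/-- The primality fact for an element of `S` (a local instance; `Fact _` is a proposition). -/
theorem fact_prime_of_mem (q : S) : Fact (Nat.Prime (q.1 : ℕ)) := ⟨q.1.2⟩

attribute [local instance] fact_prime_of_mem

/-- The projection `L ⊗ ℚ_S → ℚ_q ⊗ L`. -/
def piq (q : S) : AS S L →ₐ[ℚ] BQ (q.1 : ℕ) L :=
  (Algebra.TensorProduct.comm ℚ L ℚ_[(q.1 : ℕ)]).toAlgHom.comp
    (Algebra.TensorProduct.map (AlgHom.id ℚ L) (QS.proj S q))

theorem piq_tmul (q : S) (l : L) (y : QS S) :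
    piq S L q (l ⊗ₜ[ℚ] y) = (QS.toPi S y q) ⊗ₜ[ℚ] l := by
  simp [piq]

theorem piq_surjective (q : S) : Function.Surjective (piq S L q) := by
  intro b
  induction b using TensorProduct.induction_on with
  | zero => exact ⟨0, map_zero _⟩
  | tmul a l => exact ⟨l ⊗ₜ[ℚ] single S q a, by rw [piq_tmul, single_apply_same]⟩
  | add x y hx hy =>
    obtain ⟨x', rfl⟩ := hx
    obtain ⟨y', rfl⟩ := hy
    exact ⟨x' + y', map_add _ _ _⟩

/-- The idempotent `1 ⊗ e_q` of `L ⊗ ℚ_S`. -/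
def idem (q : S) : AS S L := (1 : L) ⊗ₜ[ℚ] single S q 1

theorem piq_idem_same (q : S) : piq S L q (idem S L q) = 1 := by
  rw [idem, piq_tmul, single_apply_same]
  rfl

theorem piq_idem_ne (q q' : S) (h : q' ≠ q) : piq S L q' (idem S L q) = 0 := by
  rw [idem, piq_tmul, single_apply_ne S q q' h, TensorProduct.zero_tmul]


/-- `single` as a `ℚ`-linear map. -/
def singleLin (q : S) : ℚ_[(q.1 : ℕ)] →ₗ[ℚ] QS S where
  toFun x := single S q x
  map_add' x y := single_add S q x y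
  map_smul' c x := by
    refine QS_ext S fun q' => ?_
    simp only [RingHom.id_apply]
    rw [map_smul, Pi.smul_apply]
    by_cases h : q' = q
    · subst h
      rw [single_apply_same, single_apply_same]
    · rw [single_apply_ne S q q' h, single_apply_ne S q q' h, smul_zero]

/-- The additive section `ℚ_q ⊗ L → L ⊗ ℚ_S`, `a ⊗ l ↦ l ⊗ (a e_q)`. -/
def secq (q : S) : BQ (q.1 : ℕ) L →ₗ[ℚ] AS S L :=
  (TensorProduct.comm ℚ (QS S) L).toLinearMap ∘ₗ
    TensorProduct.map (singleLin S q) (LinearMap.id : L →ₗ[ℚ] L)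

theorem secq_tmul (q : S) (a : ℚ_[(q.1 : ℕ)]) (l : L) :
    secq S L q (a ⊗ₜ[ℚ] l) = l ⊗ₜ[ℚ] single S q a := rfl

theorem secq_piq (q : S) (x : AS S L) : secq S L q (piq S L q x) = x * idem S L q := by
  induction x using TensorProduct.induction_on with
  | zero => simp
  | tmul l y =>
    rw [piq_tmul, secq_tmul, idem, Algebra.TensorProduct.tmul_mul_tmul, mul_one, mul_single_one]
  | add x y hx hy => rw [map_add, map_add, hx, hy, add_mul]

theorem mul_idem_eq_zero (q : S) (x : AS S L) (h : piq S L q x = 0) : x * idem S L q = 0 := by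
  rw [← secq_piq, h, map_zero]

variable {L} in
theorem mk_idem (𝔪 : SPlace S L) (q : S) :
    LocField.mk S 𝔪 (idem S L q) = LocField.ofQS S 𝔪 (single S q 1) := rfl

variable {L} in
/-- The kernel of the projection to the prime below `𝔪` is contained in `𝔪`. -/
theorem ker_piq_le (𝔪 : SPlace S L) :
    RingHom.ker (piq S L (primeOf S L 𝔪)) ≤
      𝔪.asIdeal := by
  intro x hx
  have h0 : x * idem S L (primeOf S L 𝔪) = 0 := mul_idem_eq_zero S L _ x hx
  rw [← LocField.mk_eq_zero_iff]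
  have h1 : LocField.mk S 𝔪 (x * idem S L (primeOf S L 𝔪)) = LocField.mk S 𝔪 x := by
    rw [map_mul, mk_idem, ofQS_single_primeOf, mul_one]
  rw [← h1, h0, map_zero]

/-- The place of `L ⊗ ℚ_S` attached to a prime `q ∈ S` and a maximal ideal of `ℚ_q ⊗ L`. -/
def back (x : Σ q : S, MaximalSpectrum (BQ (q.1 : ℕ) L)) : SPlace S L where
  asIdeal := x.2.asIdeal.comap (piq S L x.1)
  isMaximal :=
    haveI := x.2.isMaximal
    Ideal.comap_isMaximal_of_surjective _ (piq_surjective S L x.1)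

theorem mem_back_iff (q : S) (𝔫 : MaximalSpectrum (BQ (q.1 : ℕ) L)) (x : AS S L) :
    x ∈ (back S L ⟨q, 𝔫⟩).asIdeal ↔ piq S L q x ∈ 𝔫.asIdeal := Iff.rfl

theorem back_injective : Function.Injective (back S L) := by
  rintro ⟨q, 𝔫⟩ ⟨q', 𝔫'⟩ h
  have hqq : q = q' := by
    by_contra hne
    have h1 : idem S L q ∈ (back S L ⟨q', 𝔫'⟩).asIdeal := by
      rw [mem_back_iff, piq_idem_ne S L q q' (Ne.symm hne)]
      exact 𝔫'.asIdeal.zero_mem
    rw [← h, mem_back_iff, piq_idem_same] at h1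
    exact 𝔫.isMaximal.ne_top ((Ideal.eq_top_iff_one _).2 h1)
  subst hqq
  congr 1
  refine MaximalSpectrum.ext (Ideal.ext fun b => ?_)
  obtain ⟨x, rfl⟩ := piq_surjective S L q b
  rw [← mem_back_iff, ← mem_back_iff, h]

theorem back_surjective : Function.Surjective (back S L) := by
  intro 𝔪
  have hker := ker_piq_le S 𝔪
  set q := primeOf S L 𝔪 with hq
  have hcm : (𝔪.asIdeal.map (piq S L q)).comap (piq S L q) = 𝔪.asIdeal := by
    rw [Ideal.comap_map_of_surjective _ (piq_surjective S L q)]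
    exact sup_eq_left.2 hker
  have hmax : (𝔪.asIdeal.map (piq S L q)).IsMaximal := by
    haveI := 𝔪.isMaximal
    refine (Ideal.map_eq_top_or_isMaximal_of_surjective _ (piq_surjective S L q)
      𝔪.isMaximal).resolve_left fun htop => ?_
    rw [htop, Ideal.comap_top] at hcm
    exact 𝔪.isMaximal.ne_top hcm.symm
  exact ⟨⟨q, ⟨_, hmax⟩⟩, MaximalSpectrum.ext hcm⟩

theorem back_bijective : Function.Bijective (back S L) :=
  ⟨back_injective S L, back_surjective S L⟩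


/-! ## The local fields -/

/-- The map `L_𝔪 → F_𝔫` induced by the projection, `𝔪 = back (q, 𝔫)`. -/
def locToFQ (q : S) (𝔫 : MaximalSpectrum (BQ (q.1 : ℕ) L)) :
    LocField S (back S L ⟨q, 𝔫⟩) →+* FQ (q.1 : ℕ) L 𝔫 :=
  Ideal.quotientMap 𝔫.asIdeal (piq S L q : AS S L →+* BQ (q.1 : ℕ) L) (fun _ hx => hx)

theorem locToFQ_mk (q : S) (𝔫 : MaximalSpectrum (BQ (q.1 : ℕ) L)) (x : AS S L) :
    locToFQ S L q 𝔫 (LocField.mk S (back S L ⟨q, 𝔫⟩) x) = FQ.mk 𝔫 (piq S L q x) := rfl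

theorem locToFQ_toLoc (q : S) (𝔫 : MaximalSpectrum (BQ (q.1 : ℕ) L)) (l : L) :
    locToFQ S L q 𝔫 (toLoc S (back S L ⟨q, 𝔫⟩) l) = toFQ 𝔫 l := by
  change locToFQ S L q 𝔫 (LocField.mk S (back S L ⟨q, 𝔫⟩) (l ⊗ₜ[ℚ] (1 : QS S))) = _
  rw [locToFQ_mk, piq_tmul]
  rfl

theorem locToFQ_bijective (q : S) (𝔫 : MaximalSpectrum (BQ (q.1 : ℕ) L)) :
    Function.Bijective (locToFQ S L q 𝔫) :=
  ⟨(locToFQ S L q 𝔫).injective,
    Ideal.quotientMap_surjective (piq_surjective S L q)⟩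

/-- The isomorphism `L_𝔪 ≃ F_𝔫`, `𝔪 = back (q, 𝔫)`. -/
def locEquiv (q : S) (𝔫 : MaximalSpectrum (BQ (q.1 : ℕ) L)) :
    LocField S (back S L ⟨q, 𝔫⟩) ≃+* FQ (q.1 : ℕ) L 𝔫 :=
  RingEquiv.ofBijective (locToFQ S L q 𝔫) (locToFQ_bijective S L q 𝔫)

theorem locEquiv_toLoc (q : S) (𝔫 : MaximalSpectrum (BQ (q.1 : ℕ) L)) (l : L) :
    locEquiv S L q 𝔫 (toLoc S (back S L ⟨q, 𝔫⟩) l) = toFQ 𝔫 l :=
  locToFQ_toLoc S L q 𝔫 l

end

end Fermat.Agent.S55.G.Places177
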